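/-
Row 37 (S43), block COUNT (chief helper23).  THE ASSEMBLY:  COUNT + the remaining abstract fields  ==>  `CoreP.Data`.

`Count.Full p` = helper96's `Count.Pkg p a` (TRIV at exponents `p` and `n = p ^ (a+1)`, FREE / (INJ) = C4 / (E') at
exponent `p`, the tower `ι`, level-0 identities at exponent `n`)  +  the fields which the core `CoreP.Data`
(helper28, `S43/CoreP.lean`, kernel-checked `false_of_data`) needs on `W(p)_m`:
`𝔽_p`-linear operators `δ, S, F, U, Ut`, four commutations, the tame relation, `U_0^t = U_0`, `U_0 ^ 2 = 1`, (H5), `W ≠ 0`.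

    `Full.toCoreP : Full p → CoreP.Data p`,      `false_of_full : Full p → False`.

DERIVED HERE (nobody has to prove them): `T` nilpotent, H1 (`ker T ⊆ im Nm`, by counting), R1, R2, R2' (COUNT),
`hc : (Ut - U) W ⊆ T W`, `U` invertible, (E') on `ker T`.
NOT NEEDED: `[U, Ut] = 0`, `Ut U = q - κ Nm`, a subspace `A`, H2d / `(F - be)(F - U) = 0`, stability of `K_∞`, `K_0` under
`U`, `Ut`, `F`, the localisation at `U_q - u`, FREE or C4 at exponent `n`.
-/
import Fermat.Agent.S43.Count.Main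
import Fermat.Agent.S43.CoreP

set_option autoImplicit false

namespace Fermat.Agent.S43.Count

open Polynomial in
/-- `∑_{j < p ^ a} (1 + T) ^ j = T ^ (p ^ a - 1)` in an algebra over `𝔽_p`. -/
theorem sum_one_add_pow_eq {A : Type*} [Ring A] (p : ℕ) [Fact p.Prime] [Algebra (ZMod p) A] (a : ℕ)
    (T : A) : ∑ j ∈ Finset.range (p ^ a), (1 + T) ^ j = T ^ (p ^ a - 1) := by
  have hP : 0 < p ^ a := pow_pos (Fact.out : p.Prime).pos a
  have key : ∑ j ∈ Finset.range (p ^ a), (1 + (X : (ZMod p)[X])) ^ j = X ^ (p ^ a - 1) := by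
    have h1 : (∑ j ∈ Finset.range (p ^ a), (1 + (X : (ZMod p)[X])) ^ j) * X =
        X ^ (p ^ a - 1) * X := by
      have h2 := geom_sum_mul (1 + (X : (ZMod p)[X])) (p ^ a)
      rw [add_sub_cancel_left, add_pow_char_pow, one_pow, add_sub_cancel_left] at h2
      rw [h2, ← pow_succ, Nat.sub_add_cancel hP]
    exact mul_right_cancel₀ X_ne_zero h1
  have := congrArg (aeval (R := ZMod p) T) key
  simpa using this

/-- **The abstract form of the whole level-`H` package** (contract for GLUE). -/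
structure Full (p : ℕ) [Fact p.Prime] : Type 1 where
  /-- `P = p ^ a` -/
  a : ℕ
  /-- block COUNT proper (helper96): TRIV, FREE, C4, E0, EXP, L0 -/
  C : Pkg p a
  /-- `q = 1 + κ P`, `p ∤ κ` -/
  κ : ℕ
  q : ℕ
  hq : q = 1 + κ * p ^ a
  hκ : (κ : ZMod p) ≠ 0
  [mod : Module (ZMod p) C.Wp]
  -- DICT
  [nontriv : Nontrivial C.Wp]
  /-- the operators on `W(p)_m` -/
  δ : Module.End (ZMod p) C.Wp
  S : Module.End (ZMod p) C.Wp
  F : Module.End (ZMod p) C.Wp
  U : Module.End (ZMod p) C.Wp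
  Ut : Module.End (ZMod p) C.Wp
  hT : ∀ x, C.Tp x = δ x - x
  hN : ∀ x, C.Np x = S x - x
  hB : ∀ x, C.Bp x = F x - U x
  hC : ∀ x, C.Cp x = F x - Ut x
  /-- OPS -/
  δ_pow : δ ^ (p ^ a) = 1
  δ_U : Commute δ U
  δ_S : Commute δ S
  U_S : Commute U S
  Ut_S : Commute Ut S
  /-- TAME -/
  tame : F * S = S ^ q * F
  /-- L0: `U_0^t = U_0` and `U_0 ^ 2 = 1` on `W_0(p)_m` -/
  pr_Ut : ∀ x, C.prp (Ut x) = C.prp (U x)
  pr_UU : ∀ x, C.prp (U (U x)) = C.prp x
  /-- H5: `ρ̄` unramified at `q` + Eichler-Shimura + Boston-Lenstra-Ribet on `W(p)_m` -/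
  J : Type
  s : Finset J
  t : J → Module.End (ZMod p) C.Wp
  e : J → Module.End (ZMod p) C.Wp
  t_δ : ∀ i, Commute (t i) δ
  t_S : ∀ i, Commute (t i) S
  t_F : ∀ i, Commute (t i) F
  t_U : ∀ i, Commute (t i) U
  t_t : ∀ i j, Commute (t i) (t j)
  t_nilp : ∀ i, IsNilpotent (t i)
  e_δ : ∀ i, Commute (e i) δ
  e_U : ∀ i, Commute (e i) U
  e_Ut : ∀ i, Commute (e i) Ut
  H5 : S - 1 = ∑ i ∈ s, t i * e i

attribute [instance] Full.mod Full.nontriv

namespace Full

variable {p : ℕ} [Fact p.Prime] (D : Full p)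

/-- `T = δ - 1` -/
def T : Module.End (ZMod p) D.C.Wp := D.δ - 1

theorem T_apply (x : D.C.Wp) : D.T x = D.C.Tp x := by
  rw [D.hT]; rfl

theorem one_add_T : 1 + D.T = D.δ := by
  rw [T, add_sub_cancel]

theorem iterate_Tp (j : ℕ) (x : D.C.Wp) : (D.C.Tp^[j]) x = (D.T ^ j) x := by
  induction j generalizing x with
  | zero => simp
  | succ j ih =>
    rw [Function.iterate_succ_apply, ih, pow_succ, Module.End.mul_apply, T_apply]

theorem T_pow : D.T ^ (p ^ D.a) = 0 := by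
  ext x
  rw [← iterate_Tp, D.C.Tp_pow]
  rfl

theorem Nm_eq : CoreP.Nm D.T (p ^ D.a) = D.T ^ (p ^ D.a - 1) :=
  sum_one_add_pow_eq p D.a D.T

theorem inc_pr (x : D.C.Wp) : D.C.incp (D.C.prp x) = (D.T ^ (p ^ D.a - 1)) x := by
  rw [D.C.incp_prp, iterate_Tp]

theorem T_inc (y : D.C.W0p) : D.T (D.C.incp y) = 0 := by
  have hP : 0 < p ^ D.a := pow_pos (Fact.out : p.Prime).pos D.a
  obtain ⟨x, rfl⟩ := D.C.prp_surj y
  rw [inc_pr, ← Module.End.mul_apply, ← pow_succ', Nat.sub_add_cancel hP, T_pow]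
  rfl

theorem pr_T (x : D.C.Wp) : D.C.prp (D.T x) = 0 := by
  have hP : 0 < p ^ D.a := pow_pos (Fact.out : p.Prime).pos D.a
  apply D.C.incp_inj
  rw [inc_pr, map_zero, ← Module.End.mul_apply, ← pow_succ, Nat.sub_add_cancel hP, T_pow]
  rfl

/-- `ker T = π^* W_0` (counting). -/
theorem exists_inc_of_T (x : D.C.Wp) (hx : D.T x = 0) : ∃ y, x = D.C.incp y := by
  have h1 := card_ker_mul_card_range D.C.Tp
  have h2 := card_ker_mul_card_range D.C.prp
  have h3 : D.C.prp.ker = D.C.Tp.range := by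
    ext z
    constructor
    · intro hz
      obtain ⟨y, rfl⟩ := D.C.ker_prp z hz
      exact ⟨y, rfl⟩
    · rintro ⟨y, rfl⟩
      show D.C.prp (D.C.Tp y) = 0
      rw [← T_apply, pr_T]
  have h4 : Nat.card ↥D.C.prp.range = Nat.card D.C.W0p := by
    rw [AddMonoidHom.range_eq_top.2 D.C.prp_surj]
    exact Nat.card_congr AddSubgroup.topEquiv.toEquiv
  have h5 : Nat.card ↥D.C.incp.range = Nat.card D.C.W0p :=
    (Nat.card_congr (AddMonoidHom.ofInjective D.C.incp_inj).toEquiv).symm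
  have h6 : 0 < Nat.card ↥D.C.Tp.range := Nat.card_pos
  have h7 : Nat.card ↥D.C.Tp.ker = Nat.card D.C.W0p := by
    rw [h3, h4, ← h1, mul_comm] at h2
    exact (Nat.eq_of_mul_eq_mul_right h6 h2).symm
  have h8 : D.C.incp.range ≤ D.C.Tp.ker := by
    rintro _ ⟨y, rfl⟩
    show D.C.Tp (D.C.incp y) = 0
    rw [← T_apply, T_inc]
  have h9 : D.C.incp.range = D.C.Tp.ker :=
    AddSubgroup.eq_of_le_of_card_ge h8 (by rw [h5, h7])
  have h10 : x ∈ D.C.incp.range := by
    rw [h9]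
    show D.C.Tp x = 0
    rw [← T_apply, hx]
  obtain ⟨y, rfl⟩ := h10
  exact ⟨y, rfl⟩

theorem T_S : Commute D.T D.S := D.δ_S.sub_left (Commute.one_left _)

theorem T_U : Commute D.T D.U := D.δ_U.sub_left (Commute.one_left _)

/-- `(S - 1) π^* = π^* N_0`. -/
theorem N_inc (y : D.C.W0p) : D.S (D.C.incp y) - D.C.incp y = D.C.incp (D.C.N0p y) := by
  obtain ⟨x, rfl⟩ := D.C.prp_surj y
  rw [← D.C.prp_N, inc_pr, inc_pr, D.hN, map_sub, ← Module.End.mul_apply, ← Module.End.mul_apply,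
    ((D.T_S).pow_left _).eq]

theorem exists_T_of_pr (x : D.C.Wp) (hx : D.C.prp x = 0) : ∃ y, x = D.T y := by
  obtain ⟨y, hy⟩ := D.C.ker_prp x hx
  exact ⟨y, by rw [T_apply, hy]⟩

/-- `U` is invertible. -/
theorem U_unit : IsUnit D.U := by
  have key : ∀ j : ℕ, ∀ x, ∃ y, ((D.U * D.U - 1) ^ j) x = (D.T ^ j) y := by
    intro j
    induction j with
    | zero => intro x; exact ⟨x, rfl⟩
    | succ j ih =>
      intro x
      obtain ⟨y, hy⟩ := ih x
      have h0 : D.C.prp ((D.U * D.U - 1) y) = 0 := by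
        rw [LinearMap.sub_apply, Module.End.mul_apply, Module.End.one_apply, map_sub, D.pr_UU,
          sub_self]
      obtain ⟨z, hz⟩ := D.exists_T_of_pr _ h0
      refine ⟨z, ?_⟩
      have hc : Commute (D.U * D.U - 1) (D.T ^ j) :=
        (((D.T_U.mul_right D.T_U).sub_right (Commute.one_right _)).pow_left j).symm
      rw [pow_succ', Module.End.mul_apply, hy, ← Module.End.mul_apply, hc.eq, Module.End.mul_apply, hz,
        ← Module.End.mul_apply, ← pow_succ]
  have hnil : IsNilpotent (D.U * D.U - 1) := by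
    refine ⟨p ^ D.a, ?_⟩
    ext x
    obtain ⟨y, hy⟩ := key (p ^ D.a) x
    rw [hy, T_pow]
    rfl
  have h1 : IsUnit (D.U * D.U) := by
    have := hnil.isUnit_one_add
    rwa [add_sub_cancel] at this
  exact ((Commute.refl D.U).isUnit_mul_iff.1 h1).1

/-- **The assembly.** -/
def toCoreP : CoreP.Data p where
  W := D.C.Wp
  P := p ^ D.a
  κ := D.κ
  q := D.q
  hq := D.hq
  hκ := D.hκ
  T := D.T
  U := D.U
  Ut := D.Ut
  S := D.S
  F := D.F
  U_unit := D.U_unit
  T_U := D.T_U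
  T_S := D.T_S
  U_S := D.U_S
  Ut_S := D.Ut_S
  δ_pow := by rw [one_add_T, D.δ_pow]
  T_nilp := ⟨_, D.T_pow⟩
  H1 := by
    intro x hx
    obtain ⟨y, rfl⟩ := D.exists_inc_of_T x hx
    obtain ⟨z, rfl⟩ := D.C.prp_surj y
    exact ⟨z, by rw [Nm_eq, inc_pr]⟩
  R1 := by
    ext x
    have h := D.C.R1 (Fact.out : p.Prime).pos x
    rw [D.hN, D.hN, D.hT] at h
    rw [one_add_T]
    simp only [Module.End.mul_apply, LinearMap.sub_apply, Module.End.one_apply, LinearMap.zero_apply]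
    rw [sub_eq_zero]
    exact (sub_left_inj).1 h
  R2 := by
    ext x
    have h := D.C.R2 (Fact.out : p.Prime).pos x
    rw [D.hB, D.hN, D.hT] at h
    rw [one_add_T]
    simp only [Module.End.mul_apply, LinearMap.sub_apply, LinearMap.zero_apply]
    rw [sub_eq_zero]
    exact (sub_left_inj).1 h
  R2' := by
    ext x
    have h := D.C.R2' (Fact.out : p.Prime).pos x
    rw [D.hC, D.hN] at h
    simpa only [Module.End.mul_apply, LinearMap.sub_apply, Module.End.one_apply,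
      LinearMap.zero_apply] using h
  tame := D.tame
  hc := by
    intro x
    exact D.exists_T_of_pr _ (by rw [map_sub, D.pr_Ut, sub_self])
  ι := D.J
  s := D.s
  t := D.t
  a := D.e
  t_T := fun i => (D.t_δ i).sub_right (Commute.one_right _)
  t_S := D.t_S
  t_F := D.t_F
  t_U := D.t_U
  t_t := D.t_t
  t_nilp := D.t_nilp
  a_T := fun i => (D.e_δ i).sub_right (Commute.one_right _)
  a_U := D.e_U
  a_Ut := D.e_Ut
  H5 := D.H5
  exact := by
    intro x hx hS
    obtain ⟨y, rfl⟩ := D.exists_inc_of_T x hx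
    have h1 : D.C.incp (D.C.N0p y) = 0 := by rw [← N_inc, hS, sub_self]
    have h2 : D.C.N0p y = 0 := D.C.incp_inj (by rw [h1, map_zero])
    obtain ⟨z, rfl⟩ := D.C.Y0p_le y ((D.C.Y0p_ker y).1 h2)
    exact ⟨D.C.incp z, D.T_inc z, (D.N_inc z).symm⟩

end Full

/-- **The package is contradictory.** -/
theorem false_of_full {p : ℕ} [Fact p.Prime] (D : Full p) : False :=
  CoreP.false_of_data D.toCoreP

end Fermat.Agent.S43.Count
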