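/-
Row 37 (S43), block COUNT (helper96).  EXPONENT `n = p ^ k` AND THE DENOMINATOR TRICK (Mathlib only).

* `main_n`    : `YY(n) = K_∞(n) ∩ K_0(n)` equals `π^* N0 W_0(n)` as soon as this holds on the `p`-torsion.
* `rel_zero`  : an operator `R` of level `n = p ^ (a + 1)` with values in `YY(n)` and `π_* R = 0`
                vanishes on the `p`-torsion (`π_* π^* = P = p ^ a`).
* `t2_n`, `relations` : the assembled statements.
-/
import Fermat.Agent.S43.Count.MainP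

set_option autoImplicit false

namespace Fermat.Agent.S43.Count

section Rel

variable {G : Type*} [AddCommGroup G]

/-- The iterated images of a subgroup. -/
def RgK (τ : G →+ G) (K : AddSubgroup G) : ℕ → AddSubgroup G
  | 0 => K
  | (j + 1) => (RgK τ K j).map τ

theorem RgK_zero (τ : G →+ G) (K : AddSubgroup G) : RgK τ K 0 = K := rfl

theorem RgK_succ (τ : G →+ G) (K : AddSubgroup G) (j : ℕ) :
    RgK τ K (j + 1) = (RgK τ K j).map τ := rfl

theorem mem_RgK (τ : G →+ G) (K : AddSubgroup G) (j : ℕ) (x : G) :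
    x ∈ RgK τ K j ↔ ∃ y ∈ K, x = (τ^[j]) y := by
  induction j generalizing x with
  | zero => simp [RgK_zero]
  | succ j ih =>
    rw [RgK_succ]
    constructor
    · rintro ⟨z, hz, rfl⟩
      obtain ⟨y, hy, rfl⟩ := (ih z).1 hz
      exact ⟨y, hy, by rw [Function.iterate_succ_apply']⟩
    · rintro ⟨y, hy, rfl⟩
      exact ⟨(τ^[j]) y, (ih _).2 ⟨y, hy, rfl⟩, by rw [Function.iterate_succ_apply']⟩

theorem RgK_anti (τ : G →+ G) (K : AddSubgroup G) (hK : ∀ x ∈ K, τ x ∈ K) (j : ℕ) :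
    RgK τ K (j + 1) ≤ RgK τ K j := by
  intro x hx
  obtain ⟨y, hy, rfl⟩ := (mem_RgK τ K _ x).1 hx
  exact (mem_RgK τ K _ _).2 ⟨τ y, hK y hy, by rw [Function.iterate_succ_apply]⟩

theorem RgK_anti' (τ : G →+ G) (K : AddSubgroup G) (hK : ∀ x ∈ K, τ x ∈ K) {i j : ℕ}
    (h : i ≤ j) : RgK τ K j ≤ RgK τ K i := by
  induction h with
  | refl => exact le_rfl
  | step _ ih => exact (RgK_anti τ K hK _).trans ih

theorem card_le_card_inf_ker_pow [Finite G] (τ : G →+ G) (K : AddSubgroup G)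
    (hK : ∀ x ∈ K, τ x ∈ K) (k : ℕ) (hk : ∀ x ∈ K, (τ^[k]) x = 0) :
    Nat.card ↥K ≤ Nat.card ↥(K ⊓ τ.ker) ^ k := by
  have key : ∀ j, Nat.card ↥(RgK τ K 0) ≤
      Nat.card ↥(K ⊓ τ.ker) ^ j * Nat.card ↥(RgK τ K j) := by
    intro j
    induction j with
    | zero => simp
    | succ j ih =>
      refine ih.trans ?_
      have h1 := card_inf_ker_mul_card_map τ (RgK τ K j)
      rw [← RgK_succ] at h1
      rw [← h1, pow_succ, mul_assoc]
      refine Nat.mul_le_mul_left _ (Nat.mul_le_mul_right _ ?_)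
      exact AddSubgroup.card_le_of_le
        (inf_le_inf_right _ (RgK_anti' τ K hK (Nat.zero_le j)))
  have h := key k
  have hbot : RgK τ K k = ⊥ := by
    rw [eq_bot_iff]
    intro x hx
    obtain ⟨y, hy, rfl⟩ := (mem_RgK τ K _ x).1 hx
    simpa using hk y hy
  rw [hbot, RgK_zero] at h
  simpa using h

theorem card_RgK_pow_le_card [Finite G] (τ : G →+ G) (K : AddSubgroup G)
    (hK : ∀ x ∈ K, τ x ∈ K) (k : ℕ) (hk : ∀ x ∈ K, (τ^[k + 1]) x = 0) :
    Nat.card ↥(RgK τ K k) ^ (k + 1) ≤ Nat.card ↥K := by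
  have key : ∀ i, i ≤ k → Nat.card ↥(RgK τ K k) ^ (i + 1) ≤ Nat.card ↥(RgK τ K (k - i)) := by
    intro i
    induction i with
    | zero => intro _; simp
    | succ i ih =>
      intro hi
      have h0 : k - i = (k - (i + 1)) + 1 := by omega
      have h1 := card_inf_ker_mul_card_map τ (RgK τ K (k - (i + 1)))
      rw [← RgK_succ, ← h0] at h1
      rw [← h1, pow_succ, mul_comm]
      refine Nat.mul_le_mul ?_ (ih (by omega))
      refine AddSubgroup.card_le_of_le (le_inf (RgK_anti' τ K hK (by omega)) ?_)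
      intro x hx
      obtain ⟨y, hy, rfl⟩ := (mem_RgK τ K _ x).1 hx
      rw [AddMonoidHom.mem_ker, ← Function.iterate_succ_apply' τ]
      exact hk y hy
  have h := key k le_rfl
  rwa [Nat.sub_self, RgK_zero] at h

theorem iterate_nsmulHom (p j : ℕ) (x : G) :
    ((nsmulAddMonoidHom (α := G) p)^[j]) x = p ^ j • x := by
  induction j with
  | zero => simp
  | succ j ih =>
    rw [Function.iterate_succ_apply', ih, nsmulAddMonoidHom_apply, smul_smul, pow_succ, mul_comm]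

end Rel

variable {WW WW0 : Type*} [AddCommGroup WW] [AddCommGroup WW0] [Finite WW]

/-- **Exponent `p ^ k`.** -/
theorem main_n (p k : ℕ) (hk : 0 < k) (inc : WW0 →+ WW) (N0 : WW0 →+ WW0)
    (hpk : ∀ x : WW, p ^ k • x = 0)
    (hdiv0 : ∀ x : WW0, p • x = 0 → ∃ x', x = p ^ (k - 1) • x')
    (YY : AddSubgroup WW) (hI : ∀ x, inc (N0 x) ∈ YY)
    (hp : ∀ y ∈ YY, p • y = 0 → ∃ x, p • x = 0 ∧ y = inc (N0 x)) :
    ∀ y ∈ YY, ∃ x, y = inc (N0 x) := by
  obtain ⟨k, rfl⟩ : ∃ k', k = k' + 1 := ⟨k - 1, by omega⟩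
  set τ : WW →+ WW := nsmulAddMonoidHom p with hτ
  set I : AddSubgroup WW := (inc.comp N0).range with hIdef
  have hIY : I ≤ YY := by
    rintro _ ⟨x, rfl⟩
    exact hI x
  have hst : ∀ K : AddSubgroup WW, ∀ x ∈ K, τ x ∈ K := fun K x hx => K.nsmul_mem hx p
  have h1 := card_le_card_inf_ker_pow τ YY (hst YY) (k + 1)
    (fun x _ => by rw [hτ, iterate_nsmulHom]; exact hpk x)
  have h2 := card_RgK_pow_le_card τ I (hst I) k
    (fun x _ => by rw [hτ, iterate_nsmulHom]; exact hpk x)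
  have h3 : YY ⊓ τ.ker ≤ RgK τ I k := by
    rintro y ⟨hy, hy0⟩
    obtain ⟨x, hx, rfl⟩ := hp y hy hy0
    obtain ⟨x', rfl⟩ := hdiv0 x hx
    refine (mem_RgK τ I k _).2 ⟨inc (N0 x'), ⟨x', rfl⟩, ?_⟩
    rw [hτ, iterate_nsmulHom, map_nsmul, map_nsmul]
    rfl
  have h4 : Nat.card ↥YY ≤ Nat.card ↥I :=
    h1.trans ((Nat.pow_le_pow_left (AddSubgroup.card_le_of_le h3) _).trans h2)
  have heq : I = YY := AddSubgroup.eq_of_le_of_card_ge hIY h4
  intro y hy
  rw [← heq] at hy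
  obtain ⟨x, rfl⟩ := hy
  exact ⟨x, rfl⟩

omit [Finite WW] in
/-- **The denominator trick.** -/
theorem rel_zero {Wp : Type*} [AddCommGroup Wp] (P : ℕ) (ι : Wp →+ WW)
    (ι_inj : Function.Injective ι) (pr : WW →+ WW0) (inc : WW0 →+ WW)
    (pr_inc : ∀ x, pr (inc x) = P • x) (hdiv : ∀ x : Wp, ∃ z : WW, ι x = P • z)
    (YY : AddSubgroup WW) (hYY : ∀ y ∈ YY, ∃ x, y = inc x)
    (Rn : WW →+ WW) (Rp : Wp →+ Wp) (hι : ∀ x, ι (Rp x) = Rn (ι x)) (hR : ∀ z, Rn z ∈ YY)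
    (hpr : ∀ z, pr (Rn z) = 0) : ∀ x, Rp x = 0 := by
  intro x
  apply ι_inj
  obtain ⟨z, hz⟩ := hdiv x
  obtain ⟨y0, hy0⟩ := hYY _ (hR z)
  have h1 : P • y0 = 0 := by rw [← pr_inc, ← hy0, hpr]
  rw [hι, hz, map_nsmul, hy0, ← map_nsmul, h1, map_zero, map_zero]

end Fermat.Agent.S43.Count
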