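/-
Row 37 (S43), block COUNT (helper96).  THE CONTRACT OF THE BLOCK AND ITS PROOF (Mathlib only).

`Pkg p a` = what TRIV (exponents `p` and `n = p ^ (a + 1)`), FREE (exponent `p`), level `Γ₀` ((E'), TRIV₀,
NodalTarget) and the Kummer lemma (INJ) have to deliver.  `P = p ^ a` is the order of `Δ`.

  `T = δ - 1`, `N = σ - 1`, `B = φ - U_q`, `C = φ - U_q^t`  (σ a generator of tame inertia, φ a Frobenius
  fixing `μ_q`), `pr = π_*`, `inc = π^*`, `Ki = K_∞`, `K0 = K_0 = w K_∞`, `ι : W(p) → W(n)`, `[u] ↦ [u ^ (n / p)]`.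

OUTPUT (`Pkg.R1`, `Pkg.R2`, `Pkg.R2'`), on `W(p)`:
  `N N = T N`, `N B = T B`, `N C = 0`,  i.e.  `(σ-δ)(σ-1) = (σ-δ)(φ-U) = (σ-1)(φ-U^t) = 0`.
No model of `X_H` at `q`, no Weil pairing at level `H`.
-/
import Fermat.Agent.S43.Count.MainN

set_option autoImplicit false

namespace Fermat.Agent.S43.Count

/-- The input of the block COUNT. -/
structure Pkg (p a : ℕ) : Type 1 where
  Wp : Type
  W0p : Type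
  Wn : Type
  W0n : Type
  [acgWp : AddCommGroup Wp]
  [acgW0p : AddCommGroup W0p]
  [acgWn : AddCommGroup Wn]
  [acgW0n : AddCommGroup W0n]
  [finWp : Finite Wp]
  [finW0p : Finite W0p]
  [finWn : Finite Wn]
  -- operators, exponent `p`
  Tp : Wp →+ Wp
  Np : Wp →+ Wp
  Bp : Wp →+ Wp
  Cp : Wp →+ Wp
  N0p : W0p →+ W0p
  prp : Wp →+ W0p
  incp : W0p →+ Wp
  -- operators, exponent `n = p ^ (a + 1)`
  Tn : Wn →+ Wn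
  Nn : Wn →+ Wn
  Bn : Wn →+ Wn
  Cn : Wn →+ Wn
  N0n : W0n →+ W0n
  B0n : W0n →+ W0n
  C0n : W0n →+ W0n
  prn : Wn →+ W0n
  incn : W0n →+ Wn
  ι : Wp →+ Wn
  ι0 : W0p →+ W0n
  Kip : AddSubgroup Wp
  K0p : AddSubgroup Wp
  Kin : AddSubgroup Wn
  K0n : AddSubgroup Wn
  Y0p : AddSubgroup W0p
  /-- FREE, exponent `p` -/
  Tp_pow : ∀ x, (Tp^[p ^ a]) x = 0
  prp_surj : Function.Surjective prp
  ker_prp : ∀ x, prp x = 0 → ∃ y, x = Tp y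
  incp_prp : ∀ x, incp (prp x) = (Tp^[p ^ a - 1]) x
  incp_inj : Function.Injective incp
  /-- TRIV, exponent `p` -/
  Kip_T : ∀ x ∈ Kip, Tp x ∈ Kip
  K0p_T : ∀ x ∈ K0p, Tp x ∈ K0p
  Np_mem : ∀ x, Np x ∈ Kip
  NTp_mem : ∀ x, Np x - Tp x ∈ K0p
  prp_N : ∀ x, prp (Np x) = N0p (prp x)
  /-- (INJ) -/
  inj_i : ∀ x, incp x ∈ Kip → x ∈ Y0p
  inj_0 : ∀ x, incp x ∈ K0p → x ∈ Y0p
  inc_i : ∀ x ∈ Y0p, incp x ∈ Kip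
  inc_0 : ∀ x ∈ Y0p, incp x ∈ K0p
  /-- level `Γ₀`, exponent `p`: `Y0 = im N0 = ker N0` -/
  Y0p_le : ∀ y ∈ Y0p, ∃ x, y = N0p x
  N0p_mem : ∀ x, N0p x ∈ Y0p
  Y0p_ker : ∀ y, N0p y = 0 ↔ y ∈ Y0p
  /-- the tower -/
  pW0p : ∀ x : W0p, p • x = 0
  pkWn : ∀ x : Wn, p ^ (a + 1) • x = 0
  div0 : ∀ x : W0n, p • x = 0 → ∃ x', x = p ^ a • x'
  ι_inj : Function.Injective ι
  ι_tors : ∀ y : Wn, p • y = 0 → ∃ x, y = ι x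
  ι_div : ∀ x : Wp, ∃ z, ι x = p ^ a • z
  ι_Ki : ∀ x, ι x ∈ Kin → x ∈ Kip
  ι_K0 : ∀ x, ι x ∈ K0n → x ∈ K0p
  ι_inc : ∀ x, ι (incp x) = incn (ι0 x)
  ι0_N0 : ∀ x, ι0 (N0p x) = N0n (ι0 x)
  ι_T : ∀ x, ι (Tp x) = Tn (ι x)
  ι_N : ∀ x, ι (Np x) = Nn (ι x)
  ι_B : ∀ x, ι (Bp x) = Bn (ι x)
  ι_C : ∀ x, ι (Cp x) = Cn (ι x)
  /-- exponent `n` -/
  incn_i : ∀ x, incn (N0n x) ∈ Kin
  incn_0 : ∀ x, incn (N0n x) ∈ K0n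
  prn_incn : ∀ x, prn (incn x) = p ^ a • x
  Nn_mem : ∀ z, Nn z ∈ Kin
  Bn_mem : ∀ z, Bn z ∈ Kin
  NTn_mem : ∀ z, Nn z - Tn z ∈ K0n
  Cn_mem : ∀ z, Cn z ∈ K0n
  Kin_NT : ∀ z ∈ Kin, Nn z - Tn z ∈ Kin
  K0n_N : ∀ z ∈ K0n, Nn z ∈ K0n
  prn_T : ∀ z, prn (Tn z) = 0
  prn_N : ∀ z, prn (Nn z) = N0n (prn z)
  prn_B : ∀ z, prn (Bn z) = B0n (prn z)
  prn_C : ∀ z, prn (Cn z) = C0n (prn z)
  N0N0 : ∀ x, N0n (N0n x) = 0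
  N0B0 : ∀ x, N0n (B0n x) = 0
  N0C0 : ∀ x, N0n (C0n x) = 0

attribute [instance] Pkg.acgWp Pkg.acgW0p Pkg.acgWn Pkg.acgW0n Pkg.finWp Pkg.finW0p Pkg.finWn

namespace Pkg

variable {p a : ℕ} (D : Pkg p a)

theorem card_W0p : Nat.card D.W0p = Nat.card ↥D.Y0p ^ 2 := by
  have h := card_ker_mul_card_range D.N0p
  have h1 : D.N0p.ker = D.Y0p := by
    ext y
    exact D.Y0p_ker y
  have h2 : D.N0p.range = D.Y0p := by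
    ext y
    constructor
    · rintro ⟨x, rfl⟩
      exact D.N0p_mem x
    · intro hy
      obtain ⟨x, rfl⟩ := D.Y0p_le y hy
      exact ⟨x, rfl⟩
  rw [h1, h2] at h
  rw [← h, sq]

/-- **(T2) at exponent `p`**: `K_∞ ∩ K_0 = π^* Y0`. -/
theorem t2_p (hp : 0 < p) : ∀ y ∈ D.Kip, y ∈ D.K0p → ∃ x ∈ D.Y0p, y = D.incp x :=
  main_p (p ^ a) (pow_pos hp a) D.Tp D.Np D.N0p D.prp D.incp D.Tp_pow D.prp_surj D.ker_prp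
    D.incp_prp D.incp_inj D.prp_N D.Kip D.K0p D.Kip_T D.K0p_T D.Np_mem D.NTp_mem D.Y0p D.inj_i
    D.inj_0 D.inc_i D.inc_0 D.Y0p_le D.card_W0p

/-- **(T2) at exponent `n = p ^ (a + 1)`**: `K_∞ ∩ K_0 = π^* N0 W_0(n)`. -/
theorem t2_n (hp : 0 < p) : ∀ y ∈ D.Kin ⊓ D.K0n, ∃ x, y = D.incn (D.N0n x) := by
  refine main_n p (a + 1) (Nat.succ_pos a) D.incn D.N0n D.pkWn D.div0 (D.Kin ⊓ D.K0n)
    (fun x => ⟨D.incn_i x, D.incn_0 x⟩) ?_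
  rintro y ⟨hyi, hy0⟩ hpy
  obtain ⟨x, rfl⟩ := D.ι_tors y hpy
  obtain ⟨x0, hx0, rfl⟩ := D.t2_p hp x (D.ι_Ki x hyi) (D.ι_K0 x hy0)
  obtain ⟨x1, rfl⟩ := D.Y0p_le x0 hx0
  refine ⟨D.ι0 x1, ?_, ?_⟩
  · rw [← map_nsmul, D.pW0p, map_zero]
  · rw [D.ι_inc, D.ι0_N0]

theorem rel (hp : 0 < p) (Rn : D.Wn →+ D.Wn) (Rp : D.Wp →+ D.Wp)
    (hι : ∀ x, D.ι (Rp x) = Rn (D.ι x)) (hRi : ∀ z, Rn z ∈ D.Kin) (hR0 : ∀ z, Rn z ∈ D.K0n)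
    (hpr : ∀ z, D.prn (Rn z) = 0) : ∀ x, Rp x = 0 :=
  rel_zero (p ^ a) D.ι D.ι_inj D.prn D.incn D.prn_incn D.ι_div (D.Kin ⊓ D.K0n)
    (fun y hy => by
      obtain ⟨x, hx⟩ := D.t2_n hp y hy
      exact ⟨_, hx⟩) Rn Rp hι (fun z => ⟨hRi z, hR0 z⟩) hpr

/-- **R1**: `(σ - δ)(σ - 1) = 0` on `W(p)`. -/
theorem R1 (hp : 0 < p) (x : D.Wp) : D.Np (D.Np x) = D.Tp (D.Np x) := by
  have h := D.rel hp ((D.Nn - D.Tn).comp D.Nn) ((D.Np - D.Tp).comp D.Np)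
    (fun x => by simp [D.ι_N, D.ι_T])
    (fun z => by simpa using D.Kin_NT _ (D.Nn_mem z))
    (fun z => by simpa using D.NTn_mem (D.Nn z))
    (fun z => by simp [D.prn_N, D.prn_T, D.N0N0]) x
  simpa [sub_eq_zero] using h

/-- **R2**: `(σ - δ)(φ - U) = 0` on `W(p)`. -/
theorem R2 (hp : 0 < p) (x : D.Wp) : D.Np (D.Bp x) = D.Tp (D.Bp x) := by
  have h := D.rel hp ((D.Nn - D.Tn).comp D.Bn) ((D.Np - D.Tp).comp D.Bp)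
    (fun x => by simp [D.ι_N, D.ι_T, D.ι_B])
    (fun z => by simpa using D.Kin_NT _ (D.Bn_mem z))
    (fun z => by simpa using D.NTn_mem (D.Bn z))
    (fun z => by simp [D.prn_N, D.prn_T, D.prn_B, D.N0B0]) x
  simpa [sub_eq_zero] using h

/-- **R2'**: `(σ - 1)(φ - U^t) = 0` on `W(p)`. -/
theorem R2' (hp : 0 < p) (x : D.Wp) : D.Np (D.Cp x) = 0 := by
  have h := D.rel hp (D.Nn.comp D.Cn) (D.Np.comp D.Cp)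
    (fun x => by simp [D.ι_N, D.ι_C])
    (fun z => by simpa using D.Nn_mem (D.Cn z))
    (fun z => by simpa using D.K0n_N _ (D.Cn_mem z))
    (fun z => by simp [D.prn_N, D.prn_C, D.N0C0]) x
  simpa using h

end Pkg

end Fermat.Agent.S43.Count
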