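/-
Row 37 (S43), block COUNT (helper96).  Cardinality tools for finite abelian groups (Mathlib only).
-/
import Mathlib

set_option autoImplicit false

namespace Fermat.Agent.S43.Count

variable {G H : Type*} [AddCommGroup G] [AddCommGroup H]

/-- `|K ∩ ker f| · |f(K)| = |K|`. -/
theorem card_inf_ker_mul_card_map (f : G →+ H) (K : AddSubgroup G) :
    Nat.card ↥(K ⊓ f.ker) * Nat.card ↥(K.map f) = Nat.card ↥K := by
  have h1 := AddSubgroup.card_mul_index (f.domRestrict K).ker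
  rw [AddSubgroup.index_ker, AddMonoidHom.domRestrict_range, AddMonoidHom.ker_domRestrict] at h1
  rw [← h1]
  congr 1
  rw [← AddSubgroup.inf_addSubgroupOf_right, inf_comm]
  exact (Nat.card_congr (AddSubgroup.addSubgroupOfEquivOfLe
    (inf_le_right : f.ker ⊓ K ≤ K)).toEquiv).symm

/-- `|ker f| · |range f| = |G|`. -/
theorem card_ker_mul_card_range (f : G →+ H) :
    Nat.card ↥f.ker * Nat.card ↥f.range = Nat.card G := by
  have h1 := AddSubgroup.card_mul_index f.ker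
  rwa [AddSubgroup.index_ker] at h1

/-- `|s ⊔ t| · |s ⊓ t| = |s| · |t|`. -/
theorem card_sup_mul_card_inf (s t : AddSubgroup G) :
    Nat.card ↥(s ⊔ t) * Nat.card ↥(s ⊓ t) = Nat.card ↥s * Nat.card ↥t := by
  -- the map `s → G ⧸ t`
  have h1 := card_inf_ker_mul_card_map (QuotientAddGroup.mk' t) s
  have h2 := card_inf_ker_mul_card_map (QuotientAddGroup.mk' t) (s ⊔ t)
  rw [QuotientAddGroup.ker_mk'] at h1 h2
  have h3 : (s ⊔ t) ⊓ t = t := inf_eq_right.2 le_sup_right
  have h4 : (s ⊔ t).map (QuotientAddGroup.mk' t) = s.map (QuotientAddGroup.mk' t) := by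
    rw [AddSubgroup.map_sup]
    have : t.map (QuotientAddGroup.mk' t) = ⊥ := by
      rw [eq_bot_iff]
      rintro _ ⟨x, hx, rfl⟩
      simpa using hx
    rw [this, sup_bot_eq]
  rw [h3, h4] at h2
  rw [← h2, ← h1]
  ring

/-- The iterated images of an endomorphism. -/
def Rg (τ : G →+ G) : ℕ → AddSubgroup G
  | 0 => ⊤
  | (j + 1) => (Rg τ j).map τ

@[simp] theorem Rg_zero (τ : G →+ G) : Rg τ 0 = ⊤ := rfl

theorem Rg_succ (τ : G →+ G) (j : ℕ) : Rg τ (j + 1) = (Rg τ j).map τ := rfl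

theorem mem_Rg (τ : G →+ G) (j : ℕ) (x : G) : x ∈ Rg τ j ↔ ∃ y, x = (τ^[j]) y := by
  induction j generalizing x with
  | zero => simp
  | succ j ih =>
    rw [Rg_succ]
    constructor
    · rintro ⟨z, hz, rfl⟩
      obtain ⟨y, rfl⟩ := (ih z).1 hz
      exact ⟨y, by rw [Function.iterate_succ_apply']⟩
    · rintro ⟨y, rfl⟩
      exact ⟨(τ^[j]) y, (ih _).2 ⟨y, rfl⟩, by rw [Function.iterate_succ_apply']⟩

theorem Rg_anti (τ : G →+ G) (j : ℕ) : Rg τ (j + 1) ≤ Rg τ j := by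
  intro x hx
  obtain ⟨y, rfl⟩ := (mem_Rg τ _ x).1 hx
  exact (mem_Rg τ _ _).2 ⟨τ y, by rw [Function.iterate_succ_apply]⟩

theorem Rg_anti' (τ : G →+ G) {i j : ℕ} (h : i ≤ j) : Rg τ j ≤ Rg τ i := by
  induction h with
  | refl => exact le_rfl
  | step _ ih => exact (Rg_anti τ _).trans ih

/-- **Upper bound**: `τ ^ k = 0 ⟹ |G| ≤ |ker τ| ^ k`. -/
theorem card_le_card_ker_pow [Finite G] (τ : G →+ G) (k : ℕ) (hk : ∀ x, (τ^[k]) x = 0) :
    Nat.card G ≤ Nat.card ↥τ.ker ^ k := by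
  have key : ∀ j, Nat.card ↥(Rg τ 0) ≤ Nat.card ↥τ.ker ^ j * Nat.card ↥(Rg τ j) := by
    intro j
    induction j with
    | zero => simp
    | succ j ih =>
      refine ih.trans ?_
      have h1 := card_inf_ker_mul_card_map τ (Rg τ j)
      rw [← Rg_succ] at h1
      rw [← h1, pow_succ, mul_assoc]
      refine Nat.mul_le_mul_left _ (Nat.mul_le_mul_right _ ?_)
      exact AddSubgroup.card_le_of_le inf_le_right
  have h := key k
  have hbot : Rg τ k = ⊥ := by
    rw [eq_bot_iff]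
    intro x hx
    obtain ⟨y, rfl⟩ := (mem_Rg τ _ x).1 hx
    simpa using hk y
  rw [hbot, Rg_zero] at h
  simpa using h

/-- **Lower bound**: `τ ^ (k + 1) = 0 ⟹ |G| ≥ |τ ^ k G| ^ (k + 1)`. -/
theorem card_Rg_pow_le_card [Finite G] (τ : G →+ G) (k : ℕ) (hk : ∀ x, (τ^[k + 1]) x = 0) :
    Nat.card ↥(Rg τ k) ^ (k + 1) ≤ Nat.card G := by
  have key : ∀ i, i ≤ k → Nat.card ↥(Rg τ k) ^ (i + 1) ≤ Nat.card ↥(Rg τ (k - i)) := by
    intro i
    induction i with
    | zero => intro _; simp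
    | succ i ih =>
      intro hi
      have h0 : k - i = (k - (i + 1)) + 1 := by omega
      have h1 := card_inf_ker_mul_card_map τ (Rg τ (k - (i + 1)))
      rw [← Rg_succ, ← h0] at h1
      rw [← h1, pow_succ, mul_comm]
      refine Nat.mul_le_mul ?_ (ih (by omega))
      refine AddSubgroup.card_le_of_le (le_inf (Rg_anti' τ (by omega)) ?_)
      intro x hx
      obtain ⟨y, rfl⟩ := (mem_Rg τ _ x).1 hx
      rw [AddMonoidHom.mem_ker, ← Function.iterate_succ_apply' τ]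
      exact hk y
  have h := key k le_rfl
  rw [Nat.sub_self, Rg_zero] at h
  simpa using h

end Fermat.Agent.S43.Count
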