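/-
Row 37 (S43), block COUNT (helper96).  THE COUNT AT EXPONENT `p` (Mathlib only).

`W = W_H(p)_m`, `W0 = W_0(p)_m`, `T = δ - 1` (`T ^ P = 0`), `pr = π_*`, `inc = π^*`, `N = σ - 1`,
`Ki = K_∞`, `K0 = K_0`, `Y0 = K_∞⁰ ∩ W0 = K_0⁰ ∩ W0 = ker N0 = im N0`.
Conclusion: `K_∞ ∩ K_0 = π^* Y0` (so the diamonds act trivially on the "toric part" of level `H`).
No model of `X_H` at `q` is used.
-/
import Fermat.Agent.S43.Count.Tools

set_option autoImplicit false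

namespace Fermat.Agent.S43.Count

variable {W W0 : Type*} [AddCommGroup W] [AddCommGroup W0]

theorem iterate_quot_map (K : AddSubgroup W) (T : W →+ W) (hK : K ≤ K.comap T) (j : ℕ) (w : W) :
    ((QuotientAddGroup.map K K T hK)^[j]) (QuotientAddGroup.mk' K w) =
      QuotientAddGroup.mk' K ((T^[j]) w) := by
  induction j with
  | zero => rfl
  | succ j ih =>
    rw [Function.iterate_succ_apply', ih, Function.iterate_succ_apply']
    rfl

variable [Finite W] [Finite W0]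

/-- The lower bound for `|W / K|`. -/
theorem quot_bound (P : ℕ) (hP : 0 < P) (T : W →+ W) (pr : W →+ W0) (inc : W0 →+ W)
    (hTP : ∀ x, (T^[P]) x = 0) (pr_surj : Function.Surjective pr)
    (inc_pr : ∀ x, inc (pr x) = (T^[P - 1]) x)
    (K : AddSubgroup W) (hKT : ∀ x ∈ K, T x ∈ K) (Y0 : AddSubgroup W0)
    (inj : ∀ x, inc x ∈ K → x ∈ Y0) :
    Nat.card W0 ^ P ≤ Nat.card ↥Y0 ^ P * Nat.card (W ⧸ K) := by
  obtain ⟨k, rfl⟩ : ∃ k, P = k + 1 := ⟨P - 1, by omega⟩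
  have hK : K ≤ K.comap T := fun x hx => hKT x hx
  set Tb : W ⧸ K →+ W ⧸ K := QuotientAddGroup.map K K T hK with hTb
  have hTb0 : ∀ x, (Tb^[k + 1]) x = 0 := by
    intro x
    obtain ⟨w, rfl⟩ := QuotientAddGroup.mk'_surjective K x
    rw [hTb, iterate_quot_map, hTP, map_zero]
  have h1 := card_Rg_pow_le_card Tb k hTb0
  set ψ : W0 →+ W ⧸ K := (QuotientAddGroup.mk' K).comp inc with hψ
  have h2 := card_ker_mul_card_range ψ
  have h3 : Nat.card ↥ψ.ker ≤ Nat.card ↥Y0 := by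
    refine AddSubgroup.card_le_of_le ?_
    intro x hx
    refine inj x ?_
    have : QuotientAddGroup.mk' K (inc x) = 0 := hx
    simpa using this
  have h4 : Nat.card ↥ψ.range ≤ Nat.card ↥(Rg Tb k) := by
    refine AddSubgroup.card_le_of_le ?_
    rintro _ ⟨x, rfl⟩
    obtain ⟨w, rfl⟩ := pr_surj x
    refine (mem_Rg Tb k _).2 ⟨QuotientAddGroup.mk' K w, ?_⟩
    rw [hTb, iterate_quot_map, hψ, AddMonoidHom.comp_apply, inc_pr]
    rfl
  calc Nat.card W0 ^ (k + 1) = (Nat.card ↥ψ.ker * Nat.card ↥ψ.range) ^ (k + 1) := by rw [h2]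
    _ ≤ (Nat.card ↥Y0 * Nat.card ↥(Rg Tb k)) ^ (k + 1) :=
        Nat.pow_le_pow_left (Nat.mul_le_mul h3 h4) _
    _ = Nat.card ↥Y0 ^ (k + 1) * Nat.card ↥(Rg Tb k) ^ (k + 1) := mul_pow _ _ _
    _ ≤ Nat.card ↥Y0 ^ (k + 1) * Nat.card (W ⧸ K) := Nat.mul_le_mul_left _ h1

/-- The arithmetic of the count. -/
theorem count_arith (P w w0 y ki k0 s t qi q0 : ℕ) (hw : 0 < w) (hy : 0 < y)
    (A : w ≤ w0 ^ P) (Bi : w0 ^ P ≤ y ^ P * qi) (B0 : w0 ^ P ≤ y ^ P * q0)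
    (Ci : w = qi * ki) (C0 : w = q0 * k0) (D : s * t = ki * k0) (E : w * y ≤ s * w0)
    (F : w0 = y ^ 2) : t ≤ y := by
  have hw0 : 0 < w0 := by rw [F]; positivity
  -- `t y qi q0 ≤ w w0`
  have h1 : w * (t * y * qi * q0) ≤ w * (w * w0) := by
    calc w * (t * y * qi * q0) = (w * y) * (t * qi * q0) := by ring
      _ ≤ (s * w0) * (t * qi * q0) := Nat.mul_le_mul_right _ E
      _ = (s * t) * w0 * qi * q0 := by ring
      _ = (ki * k0) * w0 * qi * q0 := by rw [D]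
      _ = (qi * ki) * (q0 * k0) * w0 := by ring
      _ = w * (w * w0) := by rw [← Ci, ← C0]; ring
  have h2 : t * y * qi * q0 ≤ w * w0 := Nat.le_of_mul_le_mul_left h1 hw
  have hyP : y ^ P * y ^ P = w0 ^ P := by rw [F, ← pow_mul, ← pow_add]; congr 1; ring
  have h3 : (w0 ^ P * w0 ^ P) * (t * y) ≤ (w0 ^ P * w0 ^ P) * (y * y) := by
    calc (w0 ^ P * w0 ^ P) * (t * y) ≤ ((y ^ P * qi) * (y ^ P * q0)) * (t * y) :=
          Nat.mul_le_mul_right _ (Nat.mul_le_mul Bi B0)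
      _ = (y ^ P * y ^ P) * (t * y * qi * q0) := by ring
      _ ≤ (y ^ P * y ^ P) * (w * w0) := Nat.mul_le_mul_left _ h2
      _ ≤ (y ^ P * y ^ P) * (w0 ^ P * w0) := Nat.mul_le_mul_left _ (Nat.mul_le_mul_right _ A)
      _ = (w0 ^ P * w0 ^ P) * (y * y) := by rw [hyP]; nth_rewrite 3 [F]; ring
  have h4 : t * y ≤ y * y := Nat.le_of_mul_le_mul_left h3 (by positivity)
  exact Nat.le_of_mul_le_mul_right h4 hy

/-- **The count at exponent `p`.** -/
theorem main_p (P : ℕ) (hP : 0 < P) (T N : W →+ W) (N0 : W0 →+ W0) (pr : W →+ W0)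
    (inc : W0 →+ W)
    (hTP : ∀ x, (T^[P]) x = 0) (pr_surj : Function.Surjective pr)
    (ker_pr : ∀ x, pr x = 0 → ∃ y, x = T y)
    (inc_pr : ∀ x, inc (pr x) = (T^[P - 1]) x) (inc_inj : Function.Injective inc)
    (pr_N : ∀ x, pr (N x) = N0 (pr x))
    (Ki K0 : AddSubgroup W) (hKiT : ∀ x ∈ Ki, T x ∈ Ki) (hK0T : ∀ x ∈ K0, T x ∈ K0)
    (hN : ∀ x, N x ∈ Ki) (hNT : ∀ x, N x - T x ∈ K0)
    (Y0 : AddSubgroup W0)
    (inj_i : ∀ x, inc x ∈ Ki → x ∈ Y0) (inj_0 : ∀ x, inc x ∈ K0 → x ∈ Y0)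
    (inc_i : ∀ x ∈ Y0, inc x ∈ Ki) (inc_0 : ∀ x ∈ Y0, inc x ∈ K0)
    (hY : ∀ y ∈ Y0, ∃ x, y = N0 x) (hcard : Nat.card W0 = Nat.card ↥Y0 ^ 2) :
    ∀ y ∈ Ki, y ∈ K0 → ∃ x ∈ Y0, y = inc x := by
  -- (1)
  have hkerT : Nat.card ↥T.ker ≤ Nat.card W0 := by
    have h1 := card_ker_mul_card_range T
    have h2 := card_ker_mul_card_range pr
    have h3 : pr.range = ⊤ := AddMonoidHom.range_eq_top.2 pr_surj
    rw [h3] at h2
    have h4 : Nat.card ↥pr.ker ≤ Nat.card ↥T.range := by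
      refine AddSubgroup.card_le_of_le ?_
      intro x hx
      obtain ⟨y, rfl⟩ := ker_pr x hx
      exact ⟨y, rfl⟩
    have h5 : Nat.card ↥(⊤ : AddSubgroup W0) = Nat.card W0 := by simp
    rw [h5] at h2
    have h6 : Nat.card ↥pr.ker * Nat.card ↥T.ker ≤ Nat.card ↥pr.ker * Nat.card W0 := by
      rw [h2, ← h1, mul_comm]
      exact Nat.mul_le_mul_left _ h4
    exact Nat.le_of_mul_le_mul_left h6 Nat.card_pos
  have A : Nat.card W ≤ Nat.card W0 ^ P :=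
    (card_le_card_ker_pow T P hTP).trans (Nat.pow_le_pow_left hkerT _)
  have Bi := quot_bound P hP T pr inc hTP pr_surj inc_pr Ki hKiT Y0 inj_i
  have B0 := quot_bound P hP T pr inc hTP pr_surj inc_pr K0 hK0T Y0 inj_0
  have Ci := AddSubgroup.card_eq_card_quotient_mul_card_addSubgroup Ki
  have C0 := AddSubgroup.card_eq_card_quotient_mul_card_addSubgroup K0
  have D := card_sup_mul_card_inf Ki K0
  -- (3)
  have E : Nat.card W * Nat.card ↥Y0 ≤ Nat.card ↥(Ki ⊔ K0) * Nat.card W0 := by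
    have h1 := card_inf_ker_mul_card_map pr (Y0.comap pr)
    have h2 : Y0.comap pr ⊓ pr.ker = pr.ker := by
      refine inf_eq_right.2 ?_
      intro x hx
      show pr x ∈ Y0
      rw [show pr x = 0 from hx]
      exact Y0.zero_mem
    have h3 : (Y0.comap pr).map pr = Y0 := AddSubgroup.map_comap_eq_self_of_surjective pr_surj Y0
    rw [h2, h3] at h1
    have h4 : Y0.comap pr ≤ Ki ⊔ K0 := by
      intro x hx
      obtain ⟨x0, hx0⟩ := hY (pr x) hx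
      obtain ⟨x', rfl⟩ := pr_surj x0
      rw [← pr_N] at hx0
      obtain ⟨z, hz⟩ := ker_pr (x - N x') (by rw [map_sub, hx0, sub_self])
      have : x = (N x' + N z) + (-(N z - T z)) := by
        rw [← hz]
        abel
      rw [this]
      exact AddSubgroup.add_mem_sup (Ki.add_mem (hN _) (hN _)) (K0.neg_mem (hNT _))
    have h5 := AddSubgroup.card_le_of_le h4
    have h6 := card_ker_mul_card_range pr
    have h7 : pr.range = ⊤ := AddMonoidHom.range_eq_top.2 pr_surj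
    have h8 : Nat.card ↥(⊤ : AddSubgroup W0) = Nat.card W0 := by simp
    rw [h7, h8] at h6
    calc Nat.card W * Nat.card ↥Y0 = (Nat.card ↥pr.ker * Nat.card ↥Y0) * Nat.card W0 := by
          rw [← h6]; ring
      _ = Nat.card ↥(Y0.comap pr) * Nat.card W0 := by rw [h1]
      _ ≤ Nat.card ↥(Ki ⊔ K0) * Nat.card W0 := Nat.mul_le_mul_right _ h5
  have ht : Nat.card ↥(Ki ⊓ K0) ≤ Nat.card ↥Y0 :=
    count_arith P _ _ _ _ _ _ _ _ _ Nat.card_pos Nat.card_pos A Bi B0 Ci C0 D E hcard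
  -- conclusion
  have hle : Y0.map inc ≤ Ki ⊓ K0 := by
    rintro _ ⟨x, hx, rfl⟩
    exact ⟨inc_i x hx, inc_0 x hx⟩
  have hc : Nat.card ↥(Y0.map inc) = Nat.card ↥Y0 :=
    Nat.card_congr (Y0.equivMapOfInjective inc inc_inj).toEquiv.symm
  have heq : Y0.map inc = Ki ⊓ K0 := AddSubgroup.eq_of_le_of_card_ge hle (by rw [hc]; exact ht)
  intro y hyi hy0
  have : y ∈ Y0.map inc := by rw [heq]; exact ⟨hyi, hy0⟩
  obtain ⟨x, hx, rfl⟩ := this
  exact ⟨x, hx, rfl⟩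

end Fermat.Agent.S43.Count
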