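/-
Row 37 (S43), block COUNT (chief helper23).  TOP THEOREM through `Count.Full`:

    `result_of_full : NodeS44 → NodeFull → (frozen S43)`.

`NodeS44` is the frozen statement S44 (landed: `Fermat.Agent.S44.result`), `NodeFull` is the ONLY node left:
for a level `M q` prime to `p`, `ρ̄` unramified at `q`, modular of level `M q`, not of level `M`,
the abstract package `Count.Full p` exists.
-/
import Fermat.Agent.S43.Count.Full
import Fermat.Agent.S43.TopP

set_option autoImplicit false
open WeierstrassCurve WeierstrassCurve.Affine WeierstrassCurve.Affine.Point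
open CuspForm ModularFormClass UpperHalfPlane
open FreyPackage

namespace Fermat.Agent.S43

/-- **The only node**: the abstract level-`H` package exists. -/
def NodeFull : Prop :=
  ∀ (P : FreyPackage) (M q : ℕ), Hyp P M q → Nonempty (Count.Full P.p)

theorem nodeDeformP_of_full (h : NodeFull) : NodeDeformP :=
  fun P M q hyp => ⟨(h P M q hyp).some.toCoreP⟩

theorem result_of_full (h44 : NodeS44) (h : NodeFull)
    (P : FreyPackage) {N q : ℕ} (hcond : P.IsConductorLevel N) (hq : q.Prime) (hq2 : q ≠ 2)
    (hqp : q ≠ P.p) (hqN : q ∣ N)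
    (hirr : GaloisRepIsIrreducible (K := AlgebraicClosure ℚ) ℚ P.freyCurve P.p)
    (hmod : P.ModularRepOfLevel N) (hunr : P.GaloisRepUnramifiedAt q) :
    ∃ M : ℕ, M ∣ N ∧ ¬ q ∣ M ∧ P.ModularRepOfLevel M :=
  result_of_deformP h44 (nodeDeformP_of_full h) P hcond hq hq2 hqp hqN hirr hmod hunr

end Fermat.Agent.S43
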